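import Fermat.Agent.S53.Good
import Fermat.Agent.S53.Gauge
import Fermat.Agent.S53.H85.MatDict

/-!
# S53, package H4: finiteness of the good lifts over the dual numbers (`F_tan`)
-/

set_option autoImplicit false

namespace Fermat.Agent.S53.H58

open IsLocalRing Fermat.Agent.S53

section Bridge

variable {A : Type} [CommRing A] [IsLocalRing A]

/-- The two `ofMat` constructions (shared `Defs` and `H85.MatDict`) agree up to the identity. -/
noncomputable def ofMatEquiv (r : GQ →* M2 A) (hr : MatCont r) :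
    GaloisRepAdic.Equiv (ofMat r hr) (H85.ofMat r hr) where
  toLinearEquiv := LinearEquiv.refl A (Fin 2 → A)
  map_apply _ _ := rfl

/-- Equivalent `ofMat`s are conjugate. -/
theorem exists_conj_of_isEquiv {r r' : GQ →* M2 A} (hr : MatCont r) (hr' : MatCont r')
    (h : (ofMat r hr).IsEquiv (ofMat r' hr')) :
    ∃ g : (M2 A)ˣ, ∀ σ, (g : M2 A) * r σ = r' σ * g := by
  obtain ⟨e⟩ := h
  exact (H85.isEquiv_ofMat_iff (r := r) (r' := r') hr hr').mp
    ⟨((ofMatEquiv r hr).symm.trans e).trans (ofMatEquiv r' hr')⟩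

end Bridge

section DualNumber

variable {k : Type} [Field k]

theorem mem_maximalIdeal_dualNumber_iff (x : DualNumber k) :
    x ∈ maximalIdeal (DualNumber k) ↔ TrivSqZeroExt.fst x = 0 := by
  rw [mem_maximalIdeal, mem_nonunits_iff, TrivSqZeroExt.isUnit_iff_isUnit_fst, isUnit_iff_ne_zero,
    not_not]

/-- The first projection of the dual numbers as a ring homomorphism. -/
noncomputable abbrev fstR (k : Type) [Field k] : DualNumber k →+* k :=
  (TrivSqZeroExt.fstHom k k k : DualNumber k →+* k)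

theorem fstR_apply (x : DualNumber k) : fstR k x = TrivSqZeroExt.fst x := rfl

theorem mapMatrix_fstR_apply (M : M2 (DualNumber k)) (i j : Fin 2) :
    (fstR k).mapMatrix M i j = TrivSqZeroExt.fst (M i j) := rfl

end DualNumber

section Main

variable {𝒪 : Type} [CommRing 𝒪] [IsLocalRing 𝒪]
  {ρbar : ResidualGaloisRep (ResidueField 𝒪)}
  {𝒟 : ∀ ⦃A : Type⦄ [CommRing A] [IsLocalRing A] [Algebra 𝒪 A], GaloisRepAdic A → Prop}
  {γ : Gauge 𝒪} {b : Module.Basis (Fin 2) (ResidueField 𝒪) ρbar.V}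

section AnyAlgebra

/-! An arbitrary `𝒪`-algebra structure on the dual numbers whose structure map is the residue
map followed by the inclusion (the local instance shadows the global `TrivSqZeroExt.algebra'`). -/

variable [alg : Algebra 𝒪 (DualNumber (ResidueField 𝒪))]

/-- The reduction of a good lift over the dual numbers is the residual matrix representation. -/
theorem mapMatrix_fstR_good
    (halg : ∀ c : 𝒪, TrivSqZeroExt.fst (algebraMap 𝒪 (DualNumber (ResidueField 𝒪)) c) =
      residue 𝒪 c)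
    (hγ : γ.IsValid ρbar b)
    (r : GQ →* M2 (DualNumber (ResidueField 𝒪)))
    (hr : IsGood 𝒟 γ (DualNumber (ResidueField 𝒪)) r) (σ : GQ) :
    (fstR (ResidueField 𝒪)).mapMatrix (r σ) = rbarOf ρbar b σ := by
  ext i j
  have h1 := hr.lift σ i j
  rw [mem_maximalIdeal_dualNumber_iff, TrivSqZeroExt.fst_sub, sub_eq_zero] at h1
  rw [mapMatrix_fstR_apply, h1, ← hγ.hrt σ i j, halg]

/-- Two good lifts over the dual numbers with equivalent `ofMat` are equal. -/
theorem good_dualNumber_unique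
    (halg : ∀ c : 𝒪, TrivSqZeroExt.fst (algebraMap 𝒪 (DualNumber (ResidueField 𝒪)) c) =
      residue 𝒪 c)
    (hγ : γ.IsValid ρbar b)
    (r r' : GQ →* M2 (DualNumber (ResidueField 𝒪)))
    (hr : IsGood 𝒟 γ (DualNumber (ResidueField 𝒪)) r)
    (hr' : IsGood 𝒟 γ (DualNumber (ResidueField 𝒪)) r')
    (h : (ofMat r hr.cont).IsEquiv (ofMat r' hr'.cont)) : r = r' := by
  obtain ⟨g, hg⟩ := exists_conj_of_isEquiv hr.cont hr'.cont h
  have hred := mapMatrix_fstR_good halg hγ r hr
  have hred' := mapMatrix_fstR_good halg hγ r' hr'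
  refine Gauge.eq_of_conj r r' γ.g₁ γ.g₂ γ.i γ.j hr.g00 hr.g10 hr'.g00 hr'.g10
    (hr.gij.trans hr'.gij.symm) ?_ ?_ ?_ g hg
  · -- the commutator entry is a unit
    rw [TrivSqZeroExt.isUnit_iff_isUnit_fst, isUnit_iff_ne_zero, ← mapMatrix_fstR_apply,
      map_sub, map_mul, map_mul, hred, hred]
    exact hγ.hcomm
  · intro σ i j
    rw [mem_maximalIdeal_dualNumber_iff, TrivSqZeroExt.fst_sub, ← mapMatrix_fstR_apply,
      ← mapMatrix_fstR_apply, hred, hred', sub_self]
  · intro X hX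
    have hcommX : ∀ σ, (fstR (ResidueField 𝒪)).mapMatrix X * rbarOf ρbar b σ =
        rbarOf ρbar b σ * (fstR (ResidueField 𝒪)).mapMatrix X := by
      intro σ
      rw [← sub_eq_zero, ← hred σ, ← map_mul, ← map_mul, ← map_sub]
      ext i j
      rw [mapMatrix_fstR_apply]
      exact (mem_maximalIdeal_dualNumber_iff _).mp (hX σ i j)
    obtain ⟨c, hc⟩ := hγ.schur _ hcommX
    rw [mem_maximalIdeal_dualNumber_iff, ← mapMatrix_fstR_apply, hc]
    simp

/-- The residual representation of a good lift over the dual numbers. -/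
theorem good_dualNumber_residual
    (halg : ∀ c : 𝒪, TrivSqZeroExt.fst (algebraMap 𝒪 (DualNumber (ResidueField 𝒪)) c) =
      residue 𝒪 c)
    (hγ : γ.IsValid ρbar b)
    (r : GQ →* M2 (DualNumber (ResidueField 𝒪)))
    (hr : IsGood 𝒟 γ (DualNumber (ResidueField 𝒪)) r) :
    (ofMat r hr.cont).residual.IsEquiv
      (ρbar.baseChangeAlong ((residue (DualNumber (ResidueField 𝒪))).comp
        (algebraMap (ResidueField 𝒪) (DualNumber (ResidueField 𝒪))))) := by
  have hred := mapMatrix_fstR_good halg hγ r hr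
  have h1 : (H85.ofMat r hr.cont).residual.IsEquiv
      (ρbar.baseChangeAlong ((residue (DualNumber (ResidueField 𝒪))).comp
        (algebraMap (ResidueField 𝒪) (DualNumber (ResidueField 𝒪))))) := by
    refine (H85.residual_ofMat_isEquiv_baseChangeAlong_iff ρbar b _ hr.cont).mpr ⟨1, fun σ => ?_⟩
    rw [Units.val_one, one_mul, mul_one]
    ext i j
    rw [H85.resMatOf_apply, ← rbarOf_apply, ← hred σ]
    show residue _ (r σ i j) = residue _ (algebraMap (ResidueField 𝒪) _ (TrivSqZeroExt.fst (r σ i j)))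
    rw [← sub_eq_zero, ← map_sub, residue_eq_zero_iff, mem_maximalIdeal_dualNumber_iff,
      TrivSqZeroExt.fst_sub, sub_eq_zero]
    rfl
  obtain ⟨e⟩ := h1
  exact ⟨(ofMatEquiv r hr.cont).residual.trans e⟩

/-- Finiteness of the set of good lifts over the dual numbers, from finiteness of a quotient of
the type of deformations to the dual numbers by a relation implying equivalence. -/
theorem finite_F_dualNumber
    (halg : ∀ c : 𝒪, TrivSqZeroExt.fst (algebraMap 𝒪 (DualNumber (ResidueField 𝒪)) c) =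
      residue 𝒪 c)
    (hγ : γ.IsValid ρbar b)
    (s : Setoid {ρ : GaloisRepAdic (DualNumber (ResidueField 𝒪)) //
      𝒟 ρ ∧ ρ.residual.IsEquiv
        (ρbar.baseChangeAlong ((residue (DualNumber (ResidueField 𝒪))).comp
          (algebraMap (ResidueField 𝒪) (DualNumber (ResidueField 𝒪)))))})
    (hs : ∀ a b, s.r a b → a.1.IsEquiv b.1) (hfin : Finite (Quotient s)) :
    (F 𝒟 γ (DualNumber (ResidueField 𝒪))).Finite := by
  classical
  refine Set.finite_coe_iff.mp ?_
  let rr : ∀ x : ↥(F 𝒟 γ (DualNumber (ResidueField 𝒪))),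
      GQ →* M2 (DualNumber (ResidueField 𝒪)) := fun x => x.2.choose
  have hrr : ∀ x : ↥(F 𝒟 γ (DualNumber (ResidueField 𝒪))),
      (∀ σ i j, rr x σ i j = x.1 (σ, i, j)) ∧ IsGood 𝒟 γ (DualNumber (ResidueField 𝒪)) (rr x) :=
    fun x => x.2.choose_spec
  let f : ↥(F 𝒟 γ (DualNumber (ResidueField 𝒪))) → Quotient s := fun x =>
    Quotient.mk s ⟨ofMat (rr x) (hrr x).2.cont, (hrr x).2.cond,
      good_dualNumber_residual halg hγ (rr x) (hrr x).2⟩
  refine Finite.of_injective f fun x y hxy => ?_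
  have h1 := hs _ _ (Quotient.exact hxy)
  have h2 : rr x = rr y := good_dualNumber_unique halg hγ (rr x) (rr y) (hrr x).2 (hrr y).2 h1
  apply Subtype.ext
  funext ⟨σ, i, j⟩
  rw [← (hrr x).1 σ i j, ← (hrr y).1 σ i j, h2]

end AnyAlgebra

/-- **H4 (tan)**: the good lifts over the dual numbers (with the algebra structure used in
`GaloisRep.TangentFinite`) form a finite set. -/
theorem F_tan_of_tangentFinite (hγ : γ.IsValid ρbar b)
    (hfin : GaloisRep.TangentFinite 𝒪 ρbar 𝒟) :
    (@F 𝒪 _ 𝒟 γ (DualNumber (ResidueField 𝒪)) _ _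
        ((algebraMap (ResidueField 𝒪) (DualNumber (ResidueField 𝒪))).comp
          (algebraMap 𝒪 (ResidueField 𝒪))).toAlgebra).Finite := by
  unfold GaloisRep.TangentFinite at hfin
  exact @finite_F_dualNumber 𝒪 _ _ ρbar 𝒟 γ b
    ((algebraMap (ResidueField 𝒪) (DualNumber (ResidueField 𝒪))).comp
      (algebraMap 𝒪 (ResidueField 𝒪))).toAlgebra (fun _ => rfl) hγ _ (fun _ _ h => h) hfin

end Main

section Plan

variable {𝒪 : Type} [CommRing 𝒪] [IsDomain 𝒪] [IsDiscreteValuationRing 𝒪]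
  [IsAdicComplete (maximalIdeal 𝒪) 𝒪] [Finite (ResidueField 𝒪)]
  {ρbar : ResidualGaloisRep (ResidueField 𝒪)}
  {𝒟 : ∀ ⦃A : Type⦄ [CommRing A] [IsLocalRing A] [Algebra 𝒪 A], GaloisRepAdic A → Prop}
  {γ : Gauge 𝒪} {b : Module.Basis (Fin 2) (ResidueField 𝒪) ρbar.V}

/-- H4 (tan), in the exact shape of `Plan.F_tan`. -/
theorem F_tan (hγ : γ.IsValid ρbar b) (h𝒟 : GaloisRep.IsDeformationCondition 𝒪 𝒟)
    (hfin : GaloisRep.TangentFinite 𝒪 ρbar 𝒟) :
    (@F 𝒪 _ 𝒟 γ (DualNumber (ResidueField 𝒪)) _ _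
        ((algebraMap (ResidueField 𝒪) (DualNumber (ResidueField 𝒪))).comp
          (algebraMap 𝒪 (ResidueField 𝒪))).toAlgebra).Finite :=
  F_tan_of_tangentFinite hγ hfin

end Plan

end Fermat.Agent.S53.H58
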